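import Fermat.Agent.S36.H803.R3Spec
import Fermat.Agent.A2.Alg.H609.ChartFacts

/-!
# S59 moonshot, cell (C) LO-SQ, leaf GUB (helper807) — interface and assembly

Level `M * q`, `q ∤ M`, vocabulary of `S36/H803/R3Spec.lean` (finite chart `Bfin`, components
`p₁ = B ∩ w V∞`, `p₂ = B ∩ w V₀`, nodes = maximal ideals `n ⊇ p₁ + p₂`).

* `Gub4Statement`  : `4 ∣ M`, `5 ≤ q`:  `12 · #nodes ≤ (q - 1) ψ(M)`
                     (`H803.GubStatement` with `Rigid M` replaced by `4 ∣ M ∧ 5 ≤ q`).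
* `Ord12Statement` : at every node `n`, `D ∈ p₂ + n ^ 12` (`D = q¹² Δ(t^q)/Δ(t)`): the Hasse
                     polynomial is a 12-th power up to `j^{4δ} (j - 1728)^{6ε}`, and the level-4
                     structure makes `j` a cube and `j - 1728` a square at the points over
                     `j = 0`, `j = 1728`.
* `gub4_of_deg0_ord12 : H803.Deg0Statement → Ord12Statement → Gub4Statement` (sorry-free).
-/

set_option autoImplicit false
set_option linter.unusedSectionVars false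
set_option linter.unusedVariables false
set_option linter.style.haveILetI false
set_option synthInstance.maxHeartbeats 400000
set_option maxHeartbeats 1600000

noncomputable section

namespace Fermat.Agent.S59.H807

open ModularCurve Fermat.Agent.A2.Mod Fermat.Agent.S36.H803

variable (P : ValuationSubring Qb) (E : IntermediateField ℚ Qb) (M q : ℕ) [NeZero M] [NeZero q]
  (w : RE P E)

/-- **Leaf GUB4**: `12 · #nodes ≤ (q - 1) ψ(M)` for `4 ∣ M`, `5 ≤ q`. -/
def Gub4Statement : Prop :=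
  R3Hyp P E M q w → 4 ∣ M → 5 ≤ q →
    ∀ p₁ p₂ : Ideal (Bfin P E M q), IsComponents P E M q w p₁ p₂ →
      ∀ s : Finset (Ideal (Bfin P E M q)), (∀ n ∈ s, IsNode P E M q p₁ p₂ n) →
        12 * s.card ≤ (q - 1) * dedekindPsi M

/-- **Leaf ORD12**: `D` vanishes to order `≥ 12` along `C₀` at every node. -/
def Ord12Statement : Prop :=
  R3Hyp P E M q w → 4 ∣ M → 5 ≤ q →
    ∀ D : Bfin P E M q, IsD E M q (D : FE E (M * q)) →
      ∀ p₁ p₂ : Ideal (Bfin P E M q), IsComponents P E M q w p₁ p₂ →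
        ∀ n : Ideal (Bfin P E M q), IsNode P E M q p₁ p₂ n → D ∈ p₂ ⊔ n ^ 12

/-- A cut is determined by its valuation ring. -/
theorem isCut_unique807 {N : ℕ} {V : ValuationSubring (FE E N)}
    {B : Subalgebra (RE P E) (FE E N)} {p p' : Ideal B}
    (h : IsCut P E N w V B p) (h' : IsCut P E N w V B p') : p = p' := by
  ext b
  rw [h b, h' b]

/-- The semistable chart with PRESCRIBED components. -/
theorem exists_ssChart_of_components807 (hyp : R3Hyp P E M q w)
    (p₁ p₂ : Ideal (Bfin P E M q)) (hcomp : IsComponents P E M q w p₁ p₂) :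
    ∃ c : Fermat.Agent.A2.SSChart w (Bfin P E M q), c.p₁ = p₁ ∧ c.p₂ = p₂ := by
  obtain ⟨V, W, hV, hW, hc₁, hc₂⟩ := hcomp
  obtain ⟨VM, hVM⟩ := hyp.vinfM
  have hy' : IsCoord E M q (xE E M q) := Or.inl rfl
  have hy : IsCoordPair E M q (jE E M 1 (one_dvd _)) (xE E M q) := Or.inl ⟨rfl, rfl⟩
  have hgood := (hyp.goodRed w VM hyp.setting.unif hVM).1
  obtain ⟨p₁', p₂', hc₁', hc₂', hp₁, hp₂, h₁₂, h₂₁, hinf⟩ :=
    hyp.s1 hyp.setting V W hV hW (xE E M q) hy'
  have e₁ : p₁' = p₁ := isCut_unique807 P E w hc₁' hc₁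
  have e₂ : p₂' = p₂ := isCut_unique807 P E w hc₂' hc₂
  subst e₁ e₂
  obtain ⟨hn₁, hn₂⟩ :=
    hyp.s2 hyp.setting VM V W hVM hV hW _ (xE E M q) hy hgood p₁' p₂' hc₁ hc₂
  have hrad := hyp.s3 hyp.setting VM V W hVM hV hW _ (xE E M q) hy hgood p₁' p₂' hc₁ hc₂
  exact ⟨{ p₁ := p₁'
           p₂ := p₂'
           prime₁ := hp₁
           prime₂ := hp₂
           ne := fun h => h₁₂ (h ▸ le_refl p₁')
           not_le₁₂ := h₁₂
           not_le₂₁ := h₂₁
           inf_eq := hinf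
           normal₁ := hn₁
           normal₂ := hn₂
           transversal := hrad }, rfl, rfl⟩

/-- The chart context of the finite chart. -/
theorem chartCtx_bfin807 (hyp : R3Hyp P E M q w) :
    Fermat.Agent.A2.Alg.ChartCtx E w (xE E M q) (Bfin P E M q) := by
  obtain ⟨hx, hfr, hconst⟩ := hyp.deg hyp.setting.q_prime hyp.setting.q_not_dvd
  have hpos : 0 < Module.finrank (IntermediateField.adjoin E ({xE E M q} : Set (FE E (M * q))))
      (FE E (M * q)) := by
    rw [hfr]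
    have h1 := dedekindPsi_pos_of_ne_zero M (NeZero.ne M)
    positivity
  exact
    { hw := hyp.setting.unif
      hx := hx
      hfin := Module.finite_of_finrank_pos hpos
      hconst := hconst
      hB := fun _ => Iff.rfl }

/-- **Assembly**: `DEG0 + ORD12 ⟹ GUB4`. -/
theorem gub4_of_deg0_ord12 (hDEG : Deg0Statement P E M q w)
    (hORD : Ord12Statement P E M q w) : Gub4Statement P E M q w := by
  intro hyp h4 h5 p₁ p₂ hcomp s hs
  classical
  haveI := hyp.setting.dvr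
  obtain ⟨c, rfl, rfl⟩ := exists_ssChart_of_components807 P E M q w hyp p₁ p₂ hcomp
  obtain ⟨D, D', hD, hD', -, hDB, hD'B, -⟩ :=
    Fermat.Agent.S36.H438.mu_package P E M q hyp.setting.q_prime
  obtain ⟨S, hS, hsum⟩ := hDEG hyp ⟨D, hDB⟩ hD c.p₁ c.p₂ hcomp
  have hB := chartCtx_bfin807 P E M q w hyp
  obtain ⟨hnoeth, hic, hfrac⟩ := Fermat.Agent.A2.Alg.H34.chart_instances' w (xE E M q)
    (Bfin P E M q) hB
  haveI := c.prime₂
  haveI : IsIntegrallyClosed (Bfin P E M q ⧸ c.p₂) := c.normal₂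
  have hw : algebraMap (RE P E) (Bfin P E M q) w ∈ c.p₁ ⊓ c.p₂ := by
    rw [c.inf_eq]
    exact Ideal.mem_span_singleton_self _
  haveI : IsDedekindDomain (Bfin P E M q ⧸ c.p₂) :=
    Fermat.Agent.A2.Alg.H609.isDedekindDomain_quotient_chart w (xE E M q) (Bfin P E M q) hB
      c.p₂ hw.2
  have hsub : s ⊆ S := fun n hn => (hS n).2 (hs n hn)
  have h12 : ∀ n ∈ s, ((12 : ℕ) : ℕ∞) ≤ ordAt c.p₂ n (⟨D, hDB⟩ : Bfin P E M q) := by
    intro n hn
    obtain ⟨hmax, h₁, h₂⟩ := hs n hn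
    haveI := hmax
    rw [le_ordAt_iff c.p₂ n h₂]
    exact hORD hyp h4 h5 ⟨D, hDB⟩ hD c.p₁ c.p₂ hcomp n (hs n hn)
  have hle : ((12 * s.card : ℕ) : ℕ∞) ≤ (((q - 1) * dedekindPsi M : ℕ) : ℕ∞) := by
    rw [← hsum]
    calc ((12 * s.card : ℕ) : ℕ∞) = ∑ n ∈ s, ((12 : ℕ) : ℕ∞) := by
          rw [Finset.sum_const, nsmul_eq_mul]
          push_cast
          ring
      _ ≤ ∑ n ∈ s, ordAt c.p₂ n (⟨D, hDB⟩ : Bfin P E M q) := Finset.sum_le_sum h12
      _ ≤ ∑ n ∈ S, ordAt c.p₂ n (⟨D, hDB⟩ : Bfin P E M q) :=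
          Finset.sum_le_sum_of_subset hsub
  exact_mod_cast hle

end Fermat.Agent.S59.H807

end
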